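/-
PROJECT 'ONE MACHINE' (S43), block [F], cell (Z3) [MONO-tame] (helper16).  Prefix `twfm_`.

TWO-PRIME RE-INSTANTIATION of `s44gl_pair_triv` (S44/Mono/LegPairTriv.lean): the two-node theorem at
the Legendre cover for the TRIVIAL Kummer cover, with the torsion exponent `m` decoupled from the
residue characteristic `q`:

  `Φ = c · fv · g ^ m ∈ lg_E L (N' q)` fixed by the inertia family, with rational zeros and poles,
  `m ∣ ord_P fv` at every place  ⟹  `ν fv ≡ ν' fv (mod m)` at two crossing points of the `λ`-chart.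

The abstract layer `s44gt_pair` (S44/Mono/ChartTriv.lean) is exponent-free and is used verbatim.
-/
import Mathlib
import Fermat.Agent.S44.Mono.LegPairTriv

set_option autoImplicit false
set_option linter.unusedSectionVars false
set_option linter.unusedVariables false
set_option linter.style.haveILetI false

noncomputable section

namespace Fermat.Agent.TW

open Fermat.Agent.SS Fermat.Agent.JT3 IsLocalRing Polynomial AlgebraicCurve ModularCurve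
open Fermat.Agent.S44

section Leg

variable (L : Type) [Field L] [NumberField L] [Algebra L (AlgebraicClosure ℚ)]
  (O : ValuationSubring L) [IsDiscreteValuationRing O] {π : O} (hπ : Irreducible π)
  (N' q : ℕ) [NeZero N'] [NeZero q] [hq : Fact q.Prime] [CharP (ResidueField O) q]
  (hq2 : ¬ 2 ∣ q) (hqN' : ¬ q ∣ N') (ζ : L) (hζ : IsPrimitiveRoot ζ N')

include hζ in
set_option synthInstance.maxHeartbeats 400000 in
set_option maxHeartbeats 1600000 in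
/-- **THE TWO-NODE THEOREM AT THE LEGENDRE COVER, TRIVIAL KUMMER COVER, EXPONENT `m`.** -/
theorem twfm_gl_pair
    -- the inertia group
    {G : Type} [Group G] [Finite G] [MulSemiringAction G L]
    (hin : ∀ γ : G, ss_Inert O (MulSemiringAction.toRingEquiv G L γ))
    {e' : ℕ} {w : (↥O)ˣ} (hqe : ((q : ℕ) : ↥O) = π ^ e' * (w : ↥O))
    (hbase : ∀ c : L, c ≠ 0 → (∀ γ : G, γ • c = c) →
      ∃ (n : ℤ) (ω : (↥O)ˣ), c = (π : L) ^ ((e' : ℤ) * n) * (ω : L))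
    -- the data
    {m : ℕ} (hm0 : m ≠ 0)
    {fv g Φ : ↥(lg_E L (N' * q))} {c : L} (hc0 : c ≠ 0) (hg : g ≠ 0)
    (hΦ : Φ = algebraMap L ↥(lg_E L (N' * q)) c * fv * g ^ m)
    (hσΦ : ∀ γ : G, coeffMap ((MulSemiringAction.toRingEquiv G L γ : L ≃+* L) : L →+* L)
      (Φ : LaurentSeries L) = (Φ : LaurentSeries L))
    (hfv : fv ≠ 0) (hordV : ∀ P : Place L ↥(lg_E L (N' * q)), (m : ℤ) ∣ P.ord fv)
    (hRΦ : ∀ v : Place L ↥(lg_E L (N' * q)), v.ord Φ ≠ 0 → ss_RatPlace v)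
    -- the two crossing points, with their uniform coordinates
    (𝔫 𝔫' : Ideal ↥(fc_chart ↥O ({lg_lamE (N' * q)} : Set ↥(lg_E L (N' * q)))))
    [h𝔫 : 𝔫.IsMaximal] [h𝔫' : 𝔫'.IsMaximal]
    (h1 : ssm_tp_P (fc_chart ↥O ({lg_lamE (N' * q)} : Set ↥(lg_E L (N' * q))))
      (ssm_gl_V1 O hπ N' q) ≤ 𝔫)
    (h1' : ssm_tp_P (fc_chart ↥O ({lg_lamE (N' * q)} : Set ↥(lg_E L (N' * q))))
      (ssm_gl_V1 O hπ N' q) ≤ 𝔫')
    {u v u' v' : ↥(lg_E L (N' * q))}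
    (hU : s44mu_NodeAtU π (fc_chart1_le (lg_lamE (N' * q) : ↥(lg_E L (N' * q))))
      (ssm_tp_P (fc_chart ↥O ({lg_lamE (N' * q), (lg_lamE (N' * q))⁻¹} :
        Set ↥(lg_E L (N' * q)))) (ssm_gl_V1 O hπ N' q))
      (ssm_tp_P (fc_chart ↥O ({lg_lamE (N' * q), (lg_lamE (N' * q))⁻¹} :
        Set ↥(lg_E L (N' * q)))) (ssm_gl_V2 O hπ N' q hq2 hqN')) 𝔫 u v ((q : ℕ) : ↥O))
    (hU' : s44mu_NodeAtU π (fc_chart1_le (lg_lamE (N' * q) : ↥(lg_E L (N' * q))))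
      (ssm_tp_P (fc_chart ↥O ({lg_lamE (N' * q), (lg_lamE (N' * q))⁻¹} :
        Set ↥(lg_E L (N' * q)))) (ssm_gl_V1 O hπ N' q))
      (ssm_tp_P (fc_chart ↥O ({lg_lamE (N' * q), (lg_lamE (N' * q))⁻¹} :
        Set ↥(lg_E L (N' * q)))) (ssm_gl_V2 O hπ N' q hq2 hqN')) 𝔫' u' v' ((q : ℕ) : ↥O))
    (hσu : ∀ σ : L ≃+* L, ss_Inert O σ → ssm_sg_aut (N' * q) σ u = u)
    (hσu' : ∀ σ : L ≃+* L, ss_Inert O σ → ssm_sg_aut (N' * q) σ u' = u')
    (ν ν' : ↥(lg_E L (N' * q)) → ℤ) :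
    haveI := s44mci_leg_isAlg L O (N' * q)
    haveI := s44mci_leg_noeth L O (N' * q)
    haveI := s44mci_leg_ic L O (N' * q)
    haveI := ssl_loc_isNoetherianRing (F0 := ↥(lg_E L (N' * q))) 𝔫
    haveI := ssl_loc_isLocalRing (F0 := ↥(lg_E L (N' * q))) 𝔫
    haveI := ssl_loc_isNoetherianRing (F0 := ↥(lg_E L (N' * q))) 𝔫'
    haveI := ssl_loc_isLocalRing (F0 := ↥(lg_E L (N' * q))) 𝔫'
    ∀ (huS : u ∈ ssl_locSub ↥(lg_E L (N' * q)) 𝔫) (huS' : u' ∈ ssl_locSub ↥(lg_E L (N' * q)) 𝔫'),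
    s44nu_IsNu
        (algebraMap ↥(fc_chart ↥O ({lg_lamE (N' * q)} : Set ↥(lg_E L (N' * q))))
          (ssl_locSub ↥(lg_E L (N' * q)) 𝔫)
          (algebraMap ↥O ↥(fc_chart ↥O ({lg_lamE (N' * q)} : Set ↥(lg_E L (N' * q)))) π))
        (⟨u, huS⟩ : ssl_locSub ↥(lg_E L (N' * q)) 𝔫)
        (s44tl_br 𝔫 (fc_chart1_le (lg_lamE (N' * q) : ↥(lg_E L (N' * q))))
          (ssm_tp_P (fc_chart ↥O ({lg_lamE (N' * q), (lg_lamE (N' * q))⁻¹} :
            Set ↥(lg_E L (N' * q)))) (ssm_gl_V1 O hπ N' q))) ν →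
    s44nu_IsNu
        (algebraMap ↥(fc_chart ↥O ({lg_lamE (N' * q)} : Set ↥(lg_E L (N' * q))))
          (ssl_locSub ↥(lg_E L (N' * q)) 𝔫')
          (algebraMap ↥O ↥(fc_chart ↥O ({lg_lamE (N' * q)} : Set ↥(lg_E L (N' * q)))) π))
        (⟨u', huS'⟩ : ssl_locSub ↥(lg_E L (N' * q)) 𝔫')
        (s44tl_br 𝔫' (fc_chart1_le (lg_lamE (N' * q) : ↥(lg_E L (N' * q))))
          (ssm_tp_P (fc_chart ↥O ({lg_lamE (N' * q), (lg_lamE (N' * q))⁻¹} :
            Set ↥(lg_E L (N' * q)))) (ssm_gl_V1 O hπ N' q))) ν' →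
    ν fv ≡ ν' fv [ZMOD (m : ℤ)] := by
  classical
  obtain ⟨hP1, hP2, hdvr, hϖ0, hrad, hξS, hξinv, hclear, hOB, hB12V1, hP1V, hB12V2, hP2V, hloc2⟩ :=
    s44mci_leg_chartBlock L O hπ N' q hq2 hqN' ζ hζ
  haveI := hP1
  haveI := hP2
  haveI := hdvr
  haveI := s44mci_leg_isAlg L O (N' * q)
  haveI := s44mci_leg_noeth L O (N' * q)
  haveI := s44mci_leg_ic L O (N' * q)
  haveI := ssl_loc_isNoetherianRing (F0 := ↥(lg_E L (N' * q))) 𝔫
  haveI := ssl_loc_isLocalRing (F0 := ↥(lg_E L (N' * q))) 𝔫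
  haveI := ssl_loc_isNoetherianRing (F0 := ↥(lg_E L (N' * q))) 𝔫'
  haveI := ssl_loc_isLocalRing (F0 := ↥(lg_E L (N' * q))) 𝔫'
  intro huS huS' hν hν'
  have hqO : ((q : ℕ) : O) ∈ maximalIdeal O := ssm_fln_q_mem L O q
  have he' : e' ≠ 0 := by
    rintro rfl
    rw [pow_zero, one_mul] at hqe
    have hu : IsUnit ((q : ℕ) : ↥O) := hqe ▸ w.isUnit
    exact (IsLocalRing.mem_maximalIdeal _).1 hqO hu
  have hq0 : q ≠ 0 := NeZero.ne q
  have hae : Associated ((q : ℕ) : ↥O) (π ^ e') :=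
    ⟨w⁻¹, by rw [hqe, mul_assoc, Units.mul_inv, mul_one]⟩
  have hπ𝔫 := s44mci_leg_pi_mem L O hπ N' q hq2 hqN' ζ hζ 𝔫 h1
  have hπ𝔫' := s44mci_leg_pi_mem L O hπ N' q hq2 hqN' ζ hζ 𝔫' h1'
  have hvS := s44mci_mem_loc_of 𝔫 hU.2.2.1
  have hvS' := s44mci_mem_loc_of 𝔫' hU'.2.2.1
  have hstab : ∀ (γ : G) (x : L), x ∈ O → γ • x ∈ O := fun γ x hx => ssm_gs_mem (hin γ) hx
  obtain ⟨Wi, hWi, hWdvd⟩ := s44glt_exists_W O (lg_E L (N' * q)) (ssm_ga_E_le_quotField O (N' * q))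
    hπ (fun a => rfl) hstab hbase
  -- the family
  have hσB : ∀ γ : G, ssl_SigmaB π
      (ssm_sg_aut (N' * q) (MulSemiringAction.toRingEquiv G L γ))
      (fc_chart ↥O ({lg_lamE (N' * q)} : Set ↥(lg_E L (N' * q)))) :=
    fun γ => s44mx_sigmaB L O hπ N' q hq2 hqN' ζ hζ _ (hin γ)
  have hσ0 : ∀ (γ : G) (a : ↥O),
      ssm_sg_aut (N' * q) (MulSemiringAction.toRingEquiv G L γ)
          (algebraMap ↥O ↥(lg_E L (N' * q)) a) =
        algebraMap ↥O ↥(lg_E L (N' * q))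
          (ssm_sg_base O (MulSemiringAction.toRingEquiv G L γ) (hin γ) a) :=
    fun γ a => ssm_sg_aut_base O (N' * q) _ (hin γ) a
  have hact : ∀ (γ : G) (z : LaurentSeries L),
      coeffMap ((MulSemiringAction.toRingEquiv G L γ : L ≃+* L) : L →+* L) z = s44mg_act γ z :=
    fun γ z => coeffMap_congr (RingHom.ext fun a => rfl) z
  have hσV : ∀ (γ : G) (x : ↥(lg_E L (N' * q))),
      x ∈ ssm_gl_V1 O hπ N' q ↔
        ssm_sg_aut (N' * q) (MulSemiringAction.toRingEquiv G L γ) x ∈ ssm_gl_V1 O hπ N' q := by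
    intro γ x
    have hgx : s44mg_act γ (x : LaurentSeries L) ∈ lg_E L (N' * q) := by
      rw [← hact]
      exact ssm_gs_coeffMap_mem_E (N' * q) _ x.2
    have h := s44glt_sigma_V O (lg_E L (N' * q)) (ssm_ga_E_le_quotField O (N' * q)) hπ hstab γ x hgx
    have e : ssm_sg_aut (N' * q) (MulSemiringAction.toRingEquiv G L γ) x =
        (⟨s44mg_act γ (x : LaurentSeries L), hgx⟩ : ↥(lg_E L (N' * q))) :=
      Subtype.ext (hact γ _)
    rw [e]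
    exact h
  have hbase' : s44pa_Base (K := L) (F := ↥(lg_E L (N' * q))) π e'
      (fun γ : G => ssm_sg_aut (N' * q) (MulSemiringAction.toRingEquiv G L γ)) := by
    intro c₀ hc₀ hfix
    refine hbase c₀ hc₀ fun γ => ?_
    have h := hfix γ
    rw [ssm_sg_aut_algebraMap] at h
    exact (algebraMap L ↥(lg_E L (N' * q))).injective h
  have hΦ0 : Φ ≠ 0 := by
    rw [hΦ]
    refine mul_ne_zero (mul_ne_zero ?_ hfv) (pow_ne_zero _ hg)
    rw [Ne, map_eq_zero]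
    exact hc0
  have hσΦ' : ∀ γ : G, ssm_sg_aut (N' * q) (MulSemiringAction.toRingEquiv G L γ) Φ = Φ :=
    fun γ => Subtype.ext (hσΦ γ)
  have hWiΦ : (e' : ℤ) ∣ Wi Φ := hWdvd Φ hΦ0 fun γ => by rw [← hact]; exact hσΦ γ
  exact s44gt_pair (K := L) 𝔫 𝔫' (fc_chart1_le _) hπ hπ𝔫 hπ𝔫' hϖ0 hrad hξS hξinv hclear hU huS hvS
    hU' huS' hvS' he' hm0 hae hae (ssm_gl_V1 O hπ N' q) hB12V1 hP1V Wi hWi
    (ssm_gl_V2 O hπ N' q hq2 hqN') hB12V2 hP2V hloc2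
    (fun γ : G => ssm_sg_aut (N' * q) (MulSemiringAction.toRingEquiv G L γ))
    (fun γ : G => ssm_sg_base O (MulSemiringAction.toRingEquiv G L γ) (hin γ))
    hσB hσ0 (fun γ => hσu _ (hin γ)) (fun γ => hσu' _ (hin γ)) hσV hbase' hfv hordV hc0 hg hΦ hRΦ
    hσΦ' hWiΦ ν ν' hν hν'

end Leg

end Fermat.Agent.TW
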