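/-
PROJECT 'ONE MACHINE' (S43), block [F], cell (Z3) [MONO-tame] (helper16).  Prefix `twfm_`.

TWO-PRIME RE-INSTANTIATION of `s44h2_pair_nf_triv` (S44/Mono/MainPair.lean, the case `X = 0` of S44's
[H2] MONO-MAIN): THE PAIRWISE SLOPE CONGRUENCE AT ONE NUMBER FIELD `L'`, residue characteristic `q`,
level `M q`, torsion exponent `m` (any `m ≠ 0`).

From an inertia-invariant `Φ = c · φ(fv1) · g ^ m` on the Legendre cover (`fv1` a model over `L'` of a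
representing function of `V ∈ J₀(M q)[m]`) and the two supersingular node packages (ND-SS) of S44
(`s44h2_NDAt`, exponent-free):

  one reduction `fb` of one representative of `V` (`twfr_Fbar A M q m V fb`), multipliers `T, T'` with
  `T · ord_Q ū = 12 = T' · ord_{Q'} ū`, and `T · ord_Q fb ≡ T' · ord_{Q'} fb (mod m)`.
-/
import Mathlib
import Fermat.Agent.S44.Mono.MainPair
import Fermat.Agent.TW.Easy.Mono.Pair
import Fermat.Agent.TW.Easy.Res.Defs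

set_option autoImplicit false
set_option linter.unusedSectionVars false
set_option linter.style.haveILetI false
set_option linter.unusedVariables false

noncomputable section

namespace Fermat.Agent.TW

open Polynomial ModularCurve AlgebraicCurve IntermediateField IsLocalRing
open Fermat.Agent.JT3 Fermat.Agent.SS Fermat.Agent.S35 Fermat.Agent.S24 Fermat.Agent.S44

local notation "Qb" => AlgebraicClosure ℚ

section Pair

set_option synthInstance.maxHeartbeats 400000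

variable (A : ValuationSubring Qb) {q : ℕ} [hq : Fact q.Prime] (hA : A.LiesOverPrime q)
  (M : ℕ) [NeZero M] [NeZero q] [NeZero (M * q)] (hqM : ¬ q ∣ M) (hq2 : ¬ 2 ∣ q)
  (L' : IntermediateField ℚ Qb) [Normal ℚ L'] [NumberField ↥L']
  [IsDiscreteValuationRing ↥(A.comap (algebraMap ↥L' Qb))]
  [CharP (ResidueField ↥(A.comap (algebraMap ↥L' Qb))) q]
  {π : ↥(A.comap (algebraMap ↥L' Qb))} (hπ : Irreducible π)

attribute [local instance] s44kq_lsAction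

/-- multiplying a model of a representing function (exponent `m`) by a nonzero constant of `L'`. -/
theorem twfm_rep_const {m : ℕ} {z : JZero (M * q)} {x : ↥(lg_F ↥L' (M * q))} {c : ↥L'}
    (hc : c ≠ 0) (hrep : s44f_Rep (M * q) m z (ssm_al_iotaF ↥L' (M * q) x)) :
    s44f_Rep (M * q) m z
      (ssm_al_iotaF ↥L' (M * q) (algebraMap ↥L' ↥(lg_F ↥L' (M * q)) c * x)) := by
  have hc' : algebraMap ↥L' Qb c ≠ 0 := (_root_.map_ne_zero _).2 hc
  have h := (s44b_rep_pth (M * q) (p := m) (z := z) (f := ssm_al_iotaF ↥L' (M * q) x)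
    (c := algebraMap ↥L' Qb c) (h := (1 : modularFunctionFieldBar (M * q))) hc'
    one_ne_zero).2 hrep
  rw [one_pow, mul_one] at h
  rw [map_mul, ssm_al_iotaF_algebraMap]
  exact h

include hπ in
/-- multiplying a model of a representing function (exponent `m`) by a power of `π`. -/
theorem twfm_rep_norm {m : ℕ} {z : JZero (M * q)} {x : ↥(lg_F ↥L' (M * q))} (n : ℤ)
    (hrep : s44f_Rep (M * q) m z (ssm_al_iotaF ↥L' (M * q) x)) :
    s44f_Rep (M * q) m z (ssm_al_iotaF ↥L' (M * q)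
      (algebraMap ↥L' ↥(lg_F ↥L' (M * q))
        ((π : ↥(A.comap (algebraMap ↥L' Qb))) : ↥L') ^ n * x)) := by
  have hπL : ((π : ↥(A.comap (algebraMap ↥L' Qb))) : ↥L') ≠ 0 :=
    fun h => hπ.ne_zero (Subtype.ext h)
  have h := twfm_rep_const M L'
    (c := ((π : ↥(A.comap (algebraMap ↥L' Qb))) : ↥L') ^ n) (zpow_ne_zero n hπL) hrep
  rwa [map_zpow₀] at h

/-- **`red f1` is an `f̄_z`** (exponent `m`) for every Gauss-unit model `f1` of a representing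
function of `z` (twin of `s44mm_fbar`). -/
theorem twfm_fbar
    (red : ↥(s44mz_VF (A.comap (algebraMap ↥L' Qb)) hπ M q) →+* ↥(s44e_FF A M))
    (hred : ∀ (x : ↥(s44mz_VF (A.comap (algebraMap ↥L' Qb)) hπ M q))
      (hb : ssm_al_iotaF ↥L' (M * q) (x : ↥(lg_F ↥L' (M * q))) ∈
        s44pg_W A hA hq.out.ne_zero (M * q)),
      red x = s44rd_red A hA M hqM ⟨ssm_al_iotaF ↥L' (M * q) (x : ↥(lg_F ↥L' (M * q))), hb⟩)
    {m : ℕ} {z : JZero (M * q)}
    {f1 : ↥(s44mz_VF (A.comap (algebraMap ↥L' Qb)) hπ M q)} (hf1 : IsUnit f1)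
    (hrep : s44f_Rep (M * q) m z (ssm_al_iotaF ↥L' (M * q) (f1 : ↥(lg_F ↥L' (M * q))))) :
    twfr_Fbar A M q m z (red f1) :=
  ⟨s44mm_red_ne_zero A hA M hqM L' hπ red hred hf1, _, hrep,
    s44mm_redOf A hA M hqM L' hπ red hred f1⟩

set_option maxHeartbeats 3200000 in
/-- **the pairwise slope congruence at one number field, exponent `m`.** -/
theorem twfm_pair_nf {m : ℕ} (hm0 : m ≠ 0) (ζM : ↥L') (hζM : IsPrimitiveRoot ζM M)
    {V : JZero (M * q)}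
    {fv1 : ↥(lg_F ↥L' (M * q))}
    (hrepV : s44f_Rep (M * q) m V (ssm_al_iotaF ↥L' (M * q) fv1))
    {c : ↥L'} {g Φ : ↥(lg_E ↥L' (M * q))} (hc0 : c ≠ 0) (hg : g ≠ 0)
    (hΦ : (Φ : LaurentSeries ↥L') = algebraMap ↥L' (LaurentSeries ↥L') c *
      lg_phi ↥L' (fv1 : LaurentSeries ↥L') * (g : LaurentSeries ↥L') ^ m)
    (hσΦ : ∀ σ : ↥(s44mn_G (A.inertiaSubgroupIn ℚ) L'),
      coeffMap (((σ : ↥L' ≃ₐ[ℚ] ↥L') : ↥L' ≃ₐ[ℚ] ↥L') : ↥L' →+* ↥L')
        (Φ : LaurentSeries ↥L') = (Φ : LaurentSeries ↥L'))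
    (hRΦ : ∀ v : Place ↥L' ↥(lg_E ↥L' (M * q)), v.ord Φ ≠ 0 → ss_RatPlace v)
    (Q Q' : Place (s44e_kA A) (s44e_FF A M))
    (hND : s44h2_NDAt A hA M hqM hq2 Q L' hπ)
    (hND' : s44h2_NDAt A hA M hqM hq2 Q' L' hπ) :
    ∃ (fb : s44e_FF A M) (T T' : ℤ), twfr_Fbar A M q m V fb ∧
      T * Q.ord (s44e_ubar A M q) = 12 ∧ T' * Q'.ord (s44e_ubar A M q) = 12 ∧
      T * Q.ord fb ≡ T' * Q'.ord fb [ZMOD (m : ℤ)] := by
  classical
  obtain ⟨𝔫, h𝔫, u, v, T, ν, h1, hU, hσu, ⟨huS, hν⟩, hdict, h12⟩ := hND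
  obtain ⟨𝔫', h𝔫', u', v', T', ν', h1', hU', hσu', ⟨huS', hν'⟩, hdict', h12'⟩ := hND'
  haveI := h𝔫
  haveI := h𝔫'
  have hqq := hq.out
  -- `q = π ^ e' · unit`
  have hq0 : ((q : ℕ) : ↥(A.comap (algebraMap ↥L' Qb))) ≠ 0 := by
    intro h0
    have h2 := congrArg (fun z : ↥(A.comap (algebraMap ↥L' Qb)) => (z : ↥L')) h0
    simp only [ZeroMemClass.coe_zero] at h2
    have h3 : ((q : ℕ) : ↥L') = 0 := by
      rw [← h2]
      push_cast
      rfl
    exact hqq.ne_zero (by exact_mod_cast h3)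
  obtain ⟨e', w, hw⟩ := IsDiscreteValuationRing.eq_unit_mul_pow_irreducible hq0 hπ
  have hqe : ((q : ℕ) : ↥(A.comap (algebraMap ↥L' Qb))) = π ^ e' * (w : _) := by
    rw [hw, mul_comm]
  -- the inertia group
  have hin : ∀ γ : ↥(s44mn_G (A.inertiaSubgroupIn ℚ) L'),
      ss_Inert (A.comap (algebraMap ↥L' Qb))
        (MulSemiringAction.toRingEquiv ↥(s44mn_G (A.inertiaSubgroupIn ℚ) L') ↥L' γ) :=
    fun γ x hx => s44mi_inert A L' γ.2 x hx
  have hbase : ∀ c : ↥L', c ≠ 0 →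
      (∀ γ : ↥(s44mn_G (A.inertiaSubgroupIn ℚ) L'), γ • c = c) →
      ∃ (n : ℤ) (ω : (↥(A.comap (algebraMap ↥L' Qb)))ˣ),
        c = (π : ↥L') ^ ((e' : ℤ) * n) * (ω : ↥L') :=
    fun c hc hfix => s44mi_base q A hA L' hπ w.isUnit hqe c hc (fun γ hγ => hfix ⟨γ, hγ⟩)
  obtain ⟨hfv0, hordV⟩ := s44mci_ord_rep ↥L' (M * q) hrepV fv1 rfl
  have hΦ' : Φ = algebraMap ↥L' ↥(lg_E ↥L' (M * q)) c *
      lg_phiE (L := ↥L') (N := M * q) fv1 * g ^ m := Subtype.ext hΦ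
  have hpair : ν (lg_phiE (L := ↥L') (N := M * q) fv1) ≡
      ν' (lg_phiE (L := ↥L') (N := M * q) fv1) [ZMOD (m : ℤ)] :=
    twfm_gl_pair ↥L' (A.comap (algebraMap ↥L' Qb)) hπ M q hq2 hqM ζM hζM hin hqe hbase hm0
      hc0 hg hΦ' hσΦ hfv0 hordV hRΦ 𝔫 𝔫' h1 h1' hU hU' hσu hσu' ν ν' huS huS' hν hν'
  -- Gauss normalisation of `fv1`
  have hfv10 : fv1 ≠ 0 := by
    rintro rfl
    exact hfv0 (map_zero _)
  obtain ⟨n, hmemW, hunit⟩ := s44mm_exists_norm A M L' hπ fv1 hfv10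
  have hrep := twfm_rep_norm A M L' hπ n hrepV
  haveI := s44mci_leg_isAlg ↥L' (A.comap (algebraMap ↥L' Qb)) (M * q)
  haveI := s44mci_leg_noeth ↥L' (A.comap (algebraMap ↥L' Qb)) (M * q)
  haveI := s44mci_leg_ic ↥L' (A.comap (algebraMap ↥L' Qb)) (M * q)
  haveI := ssl_loc_isNoetherianRing (F0 := ↥(lg_E ↥L' (M * q))) 𝔫
  haveI := ssl_loc_isLocalRing (F0 := ↥(lg_E ↥L' (M * q))) 𝔫
  haveI := ssl_loc_isNoetherianRing (F0 := ↥(lg_E ↥L' (M * q))) 𝔫'
  haveI := ssl_loc_isLocalRing (F0 := ↥(lg_E ↥L' (M * q))) 𝔫'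
  have e1 := s44mm_nu_phi_norm A M L' hπ hν rfl hfv10 n
  have e1' := s44mm_nu_phi_norm A M L' hπ hν' rfl hfv10 n
  have hd := hdict ⟨_, hmemW⟩ hunit
  have hd' := hdict' ⟨_, hmemW⟩ hunit
  have hFb := twfm_fbar A hA M hqM L' hπ (s44nlr_red A hA M hqM L' hπ) (fun x hb => rfl)
    hunit hrep
  refine ⟨s44nlr_red A hA M hqM L' hπ ⟨_, hmemW⟩, T, T', hFb, h12, h12', ?_⟩
  rw [← hd, ← hd', e1, e1']
  exact hpair

end Pair

end Fermat.Agent.TW
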