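/-
PROJECT 'ONE MACHINE' (S43), block [F], cell (Z3) [MONO-tame] (helper16).  Prefix `twfm_`.

HILBERT 90 ON THE LEGENDRE COVER FOR ANY EXPONENT: exponent-generic twins of S44's (K-UNIF-0)
(`S44/Mono/KummerTriv.lean`: `s44kx_pack_one`, `s44kx_first`, `s44kx_unif_triv`) and of the descent
`s44mdb_descent` (`S44/Mono/DataB.lean`), whose proofs use the torsion exponent `p` only through
`p ≠ 0` and a primitive `p`-th root of unity.  The group is ANY subgroup `H ≤ G_ℚ` fixing `V`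
(in use: the inertia group of a place of `ℚ̄`).

* `twfm_descent`  : copy of `s44mdb_descent` with `(hp0 : p ≠ 0)`;
* `twfm_pack_one` : one field;  `twfm_first` : the data over the first field;
* `twfm_unif`     : `Φ = c · φ(fv1) · g ^ p ∈ lg_E L' N` fixed by `H|L'` over EVERY large normal
                    number field `L'`, compatibly, with rational zeros and poles.
-/
import Mathlib
import Fermat.Agent.S44.Mono.KummerTriv

set_option autoImplicit false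
set_option linter.unusedSectionVars false
set_option linter.style.haveILetI false
set_option linter.unusedVariables false

noncomputable section

namespace Fermat.Agent.TW

open ModularCurve AlgebraicCurve Fermat.Agent.JT3 Fermat.Agent.SS Fermat.Agent.S28
  IntermediateField Fermat.Agent.S44

local notation "Qb" => AlgebraicClosure ℚ

section Descent

variable (N : ℕ) [NeZero N] {p : ℕ}

local notation "FN" => modularFunctionFieldBar N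

/-- the Kummer relations over every large normal number field, ANY exponent `p ≠ 0` (copy of
`s44mdb_descent`, whose proof uses only `p ≠ 0`). -/
theorem twfm_descent (hp0 : p ≠ 0) {ζ β : Qb}
    (hζ : IsPrimitiveRoot ζ p) (hβ0 : β ≠ 0) {X V : JZero N}
    {fX fV : FN} (hfX : s44f_Rep N p X fX) (hfV : s44f_Rep N p V fV) :
    ∃ T0 : Finset Qb, ∀ L' : IntermediateField ℚ Qb, FiniteDimensional ℚ L' →
      ∀ _ : Normal ℚ L', (↑T0 : Set Qb) ⊆ L' →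
      ∃ (ζ1 β1 : L') (fx1 fv1 : lg_F L' N),
        algebraMap L' Qb ζ1 = ζ ∧ algebraMap L' Qb β1 = β ∧
        ssm_al_iotaF L' N fx1 = fX ∧ ssm_al_iotaF L' N fv1 = fV ∧
        ∀ (σ : s44_G) (k n : ℕ), s44mdb_Adm N ζ β X V σ k n →
          (σ.restrictNormal L') ζ1 = ζ1 ^ k ∧ (σ.restrictNormal L') β1 = ζ1 ^ n * β1 ∧
          ∃ (κ c : L') (gx gv : lg_F L' N), κ ≠ 0 ∧ c ≠ 0 ∧ gx ≠ 0 ∧ gv ≠ 0 ∧
            coeffMap ((σ.restrictNormal L' : L' ≃ₐ[ℚ] L') : L' →+* L') (fx1 : LaurentSeries L') =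
              algebraMap L' (LaurentSeries L') (κ ^ p) * (fx1 : LaurentSeries L') ^ k *
                (gx : LaurentSeries L') ^ p ∧
            coeffMap ((σ.restrictNormal L' : L' ≃ₐ[ℚ] L') : L' →+* L') (fv1 : LaurentSeries L') =
              algebraMap L' (LaurentSeries L') c * (fv1 : LaurentSeries L') *
                (fx1 : LaurentSeries L') ^ n * (gv : LaurentSeries L') ^ p := by
  classical
  obtain ⟨T1, S1, huni⟩ := s44mdb_uniform N hp0 hζ hβ0 hfX hfV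
  choose sel hsel using s44mdb_fg N
  refine ⟨{ζ, β} ∪ T1 ∪ sel fX ∪ sel fV ∪ S1.biUnion sel, fun L' _ hnorm hsub => ?_⟩
  have hmem : ∀ a, a ∈ ({ζ, β} ∪ T1 ∪ sel fX ∪ sel fV ∪ S1.biUnion sel : Finset Qb) → a ∈ L' :=
    fun a ha => hsub (Finset.mem_coe.2 ha)
  have hζL : ζ ∈ L' := hmem ζ (by simp)
  have hβL : β ∈ L' := hmem β (by simp)
  have hT1 : ∀ a ∈ T1, a ∈ L' := fun a ha => hmem a (by simp [ha])
  obtain ⟨fx1, hfx1⟩ := hsel fX L' (fun a ha => hmem a (by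
    rw [Finset.mem_coe] at ha; simp [ha]))
  obtain ⟨fv1, hfv1⟩ := hsel fV L' (fun a ha => hmem a (by
    rw [Finset.mem_coe] at ha; simp [ha]))
  have hS1 : ∀ h ∈ S1, ∃ h1 : lg_F L' N, ssm_al_iotaF L' N h1 = h := fun h hh =>
    hsel h L' (fun a ha => hmem a (by
      rw [Finset.mem_coe] at ha
      refine Finset.mem_union_right _ (Finset.mem_biUnion.2 ⟨h, hh, ha⟩)))
  refine ⟨⟨ζ, hζL⟩, ⟨β, hβL⟩, fx1, fv1, rfl, rfl, hfx1, hfv1, fun σ k n hadm => ⟨?_, ?_, ?_⟩⟩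
  · apply Subtype.ext
    have h1 := AlgEquiv.restrictNormal_commutes σ L' ⟨ζ, hζL⟩
    have h2 : algebraMap L' Qb ((σ.restrictNormal L') ⟨ζ, hζL⟩) = ζ ^ k := h1.trans hadm.1
    rw [SubmonoidClass.coe_pow]
    exact h2
  · apply Subtype.ext
    have h1 := AlgEquiv.restrictNormal_commutes σ L' ⟨β, hβL⟩
    have h2 : algebraMap L' Qb ((σ.restrictNormal L') ⟨β, hβL⟩) = ζ ^ n * β :=
      h1.trans hadm.2.2.2
    rw [MulMemClass.coe_mul, SubmonoidClass.coe_pow]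
    exact h2
  · obtain ⟨κ, hκT, c, hcT, hx, hxS, hv, hvS, ex, ev, hκ0, hc0, hhx0, hhv0, e1, e2⟩ :=
      huni σ k n hadm
    obtain ⟨hx1, hhx1⟩ := hS1 hx hxS
    obtain ⟨hv1, hhv1⟩ := hS1 hv hvS
    exact s44mdb_descent_one N L' σ (hT1 κ hκT) (hT1 c hcT) hκ0 hc0 fx1 fv1 hx1 hv1 hfx1 hfv1
      hhx1 hhv1 hfX.1 hhx0 hhv0 e1 e2

end Descent

section One

variable {L : Type*} [Field L] {G : Type*} [Group G] [MulSemiringAction G L]

attribute [local instance] s44kq_lsAction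

/-- **`X = 0`, one field**: `c · fv · g ^ p` is `G`-fixed for a constant `c ≠ 0` and some
`g ∈ lg_F L N`. -/
theorem twfm_pack_one [Finite G] [FaithfulSMul G L] (N : ℕ) [NeZero N] {p : ℕ} (hp : 0 < p)
    {ζ : L} (hζ : IsPrimitiveRoot ζ p) {fv : ↥(lg_F L N)} (hfv0 : fv ≠ 0)
    (gv : G → ↥(lg_F L N)) (cc : G → L) (hgv0 : ∀ σ, gv σ ≠ 0) (hcc0 : ∀ σ, cc σ ≠ 0)
    (relV : ∀ σ : G, coeffMap (MulSemiringAction.toRingHom G L σ) (fv : LaurentSeries L) =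
      algebraMap L (LaurentSeries L) (cc σ) * (fv : LaurentSeries L) *
        (gv σ : LaurentSeries L) ^ p) :
    ∃ (c : L) (g : ↥(lg_F L N)), c ≠ 0 ∧ g ≠ 0 ∧ ∀ σ : G,
      coeffMap (MulSemiringAction.toRingHom G L σ)
        (algebraMap L (LaurentSeries L) c * (fv : LaurentSeries L) * (g : LaurentSeries L) ^ p) =
      algebraMap L (LaurentSeries L) c * (fv : LaurentSeries L) * (g : LaurentSeries L) ^ p := by
  have hinj : Function.Injective (algebraMap L (LaurentSeries L)) :=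
    (algebraMap L (LaurentSeries L)).injective
  have hfaith : ∀ σ : G, (∀ x ∈ (lg_F L N).toSubfield, σ • x = x) → σ = 1 := by
    intro σ hσ
    have h1 : ∀ a : L, σ • a = (1 : G) • a := by
      intro a
      have h2 := hσ _ ((lg_F L N).algebraMap_mem a)
      rw [s44kq_smul_algebraMap] at h2
      rw [one_smul]
      exact hinj h2
    exact FaithfulSMul.eq_of_smul_eq_smul h1
  obtain ⟨c, g, hgE, hg0, hc0, hlcc, hfix⟩ := s44kq_main_triv (G := G) (p := p)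
    (lg_F L N).toSubfield (fun σ x hx =>
      (ssm_al_coeffMap_mem (MulSemiringAction.toRingHom G L σ) N hx :
        coeffMap (MulSemiringAction.toRingHom G L σ) x ∈ lg_F L N)) hfaith (s44kq_lc L)
    (s44kq_lc_mem (lg_F L N)) (fun σ z => s44kq_lc_smul σ z) s44kq_lc_lc
    (fun ε hε => s44kq_lc_root_of_unity hp hζ hε) (fv := (fv : LaurentSeries L)) fv.2
    (fun h => hfv0 (Subtype.ext h)) (fun σ => algebraMap L (LaurentSeries L) (cc σ))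
    (fun σ => (gv σ : LaurentSeries L)) (fun σ => (_root_.map_ne_zero _).2 (hcc0 σ))
    (fun σ => s44kq_lc_algebraMap _) (fun σ => (gv σ).2)
    (fun σ h => hgv0 σ (Subtype.ext h)) relV
  refine ⟨c.leadingCoeff, ⟨g, hgE⟩, ?_, fun h => hg0 (congrArg Subtype.val h), fun σ => ?_⟩
  · exact HahnSeries.leadingCoeff_ne_zero.2 hc0
  · have hc : algebraMap L (LaurentSeries L) c.leadingCoeff = c := hlcc
    rw [hc]
    exact hfix σ

end One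

section Unif

variable (N : ℕ) [NeZero N] {p : ℕ}

local notation "FN" => modularFunctionFieldBar N

attribute [local instance] s44kq_lsAction

set_option synthInstance.maxHeartbeats 400000
set_option maxHeartbeats 1000000

/-- the data over the first field `L₁` (twin of `s44kx_first`). -/
theorem twfm_first (hp0 : p ≠ 0) {ζ : Qb} (hζ : IsPrimitiveRoot ζ p) (H : Subgroup s44_G)
    (V : JZero N) (hH : ∀ σ ∈ H, σ • V = V) {fV : FN} (hfV : s44f_Rep N p V fV) :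
    ∃ T0 : Finset Qb, ∀ L₁ : IntermediateField ℚ Qb, FiniteDimensional ℚ L₁ →
      ∀ _ : Normal ℚ L₁, (↑T0 : Set Qb) ⊆ L₁ →
      ∃ (fv1 : ↥(lg_F ↥L₁ N)) (c : ↥L₁) (g : ↥(lg_F ↥L₁ N)),
        ssm_al_iotaF ↥L₁ N fv1 = fV ∧ c ≠ 0 ∧ g ≠ 0 ∧
        ∀ σ : ↥(s44mn_G H L₁),
          coeffMap (((σ : ↥L₁ ≃ₐ[ℚ] ↥L₁) : ↥L₁ ≃ₐ[ℚ] ↥L₁) : ↥L₁ →+* ↥L₁)
            (algebraMap ↥L₁ (LaurentSeries ↥L₁) c * (fv1 : LaurentSeries ↥L₁) *
              (g : LaurentSeries ↥L₁) ^ p) =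
          algebraMap ↥L₁ (LaurentSeries ↥L₁) c * (fv1 : LaurentSeries ↥L₁) *
            (g : LaurentSeries ↥L₁) ^ p := by
  classical
  have hfX1 : s44f_Rep N p (0 : JZero N) (1 : FN) := s44b_rep_one N
  obtain ⟨T0, hT0⟩ := twfm_descent N hp0 hζ (one_ne_zero (α := Qb)) hfX1 hfV
  refine ⟨T0, fun L₁ hfd hn hsub => ?_⟩
  haveI := hfd
  haveI := hn
  obtain ⟨ζ1, β1, fx1, fv1, hζ1, hβ1, hfx1, hfv1, hrel⟩ := hT0 L₁ hfd hn hsub
  have hinj₁ : Function.Injective (algebraMap ↥L₁ Qb) := (algebraMap ↥L₁ Qb).injective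
  have hζ1' : IsPrimitiveRoot ζ1 p :=
    IsPrimitiveRoot.of_map_of_injective (f := algebraMap ↥L₁ Qb) (by rw [hζ1]; exact hζ) hinj₁
  have hfx1' : (fx1 : LaurentSeries ↥L₁) = 1 := by
    have h1 : fx1 = 1 := ssm_al_iotaF_injective ↥L₁ N (hfx1.trans (map_one _).symm)
    rw [h1]
    rfl
  have hfv10 : fv1 ≠ 0 := by
    rintro rfl
    rw [map_zero] at hfv1
    exact hfV.1 hfv1.symm
  -- lifts
  have hlift : ∀ g : ↥(s44mn_G H L₁),
      ∃ σ : s44_G, σ ∈ H ∧ σ.restrictNormal L₁ = (g : ↥L₁ ≃ₐ[ℚ] ↥L₁) := by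
    intro g
    obtain ⟨σ, hσ, hg⟩ := Subgroup.mem_map.1 g.2
    exact ⟨σ, hσ, hg⟩
  choose σ hσH hσg using hlift
  have hdata : ∀ g : ↥(s44mn_G H L₁),
      ∃ (c : ↥L₁) (gv : ↥(lg_F ↥L₁ N)), c ≠ 0 ∧ gv ≠ 0 ∧
        coeffMap (((g : ↥L₁ ≃ₐ[ℚ] ↥L₁) : ↥L₁ ≃ₐ[ℚ] ↥L₁) : ↥L₁ →+* ↥L₁)
          (fv1 : LaurentSeries ↥L₁) =
        algebraMap ↥L₁ (LaurentSeries ↥L₁) c * (fv1 : LaurentSeries ↥L₁) *
          (gv : LaurentSeries ↥L₁) ^ p := by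
    intro g
    have h1 : (σ g ζ) ^ p = 1 := by rw [← map_pow, hζ.pow_eq_one, map_one]
    haveI : NeZero p := ⟨hp0⟩
    obtain ⟨i, -, hi⟩ := hζ.eq_pow_of_pow_eq_one h1
    have hadm : s44mdb_Adm N ζ (1 : Qb) (0 : JZero N) V (σ g) i 0 := by
      refine ⟨hi.symm, ?_, ?_, ?_⟩
      · have e1 : σ g • (0 : JZero N) = 0 := smul_zero (A := JZero N) (σ g)
        have e2 : i • (0 : JZero N) = 0 := smul_zero (A := JZero N) i
        exact e1.trans e2.symm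
      · rw [zero_nsmul, add_zero, hH _ (hσH g)]
      · rw [pow_zero, one_mul, map_one]
    obtain ⟨-, -, κ, c, gx, gv, -, hc, -, hgv, -, h2⟩ := hrel (σ g) i 0 hadm
    rw [hσg g, pow_zero, mul_one] at h2
    exact ⟨c, gv, hc, hgv, h2⟩
  choose cc gv hcc0 hgv0 hrelV using hdata
  obtain ⟨c, g, hc0, hg0, hfix⟩ := twfm_pack_one
    (G := ↥(s44mn_G H L₁)) N (Nat.pos_of_ne_zero hp0) hζ1' hfv10 gv cc hgv0 hcc0 hrelV
  exact ⟨fv1, c, g, hfv1, hc0, hg0, hfix⟩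

/-- **(K-UNIF-tame)**: Hilbert 90 on the Legendre cover for a class `V ∈ J₀(N)[p]` fixed by a subgroup
`H ≤ G_ℚ`, ANY exponent `p ≠ 0` (twin of `s44kx_unif_triv`). -/
theorem twfm_unif (hp0 : p ≠ 0) {ζ : Qb} (hζ : IsPrimitiveRoot ζ p) (H : Subgroup s44_G)
    (V : JZero N) (hH : ∀ σ ∈ H, σ • V = V) (hV : p • V = 0) :
    ∃ (T₂ : Finset Qb) (fV : FN) (cbar : Qb) (gbar Φbar : LaurentSeries Qb),
      s44f_Rep N p V fV ∧
      ∀ L' : IntermediateField ℚ Qb, FiniteDimensional ℚ L' → ∀ _ : Normal ℚ L',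
        (↑T₂ : Set Qb) ⊆ L' →
        ∃ (fv1 : ↥(lg_F ↥L' N)) (c : ↥L') (g Φ : ↥(lg_E ↥L' N)),
          ssm_al_iotaF ↥L' N fv1 = fV ∧ c ≠ 0 ∧ g ≠ 0 ∧
          (Φ : LaurentSeries ↥L') = algebraMap ↥L' (LaurentSeries ↥L') c *
            lg_phi ↥L' (fv1 : LaurentSeries ↥L') * (g : LaurentSeries ↥L') ^ p ∧
          (∀ σ : ↥(s44mn_G H L'),
            coeffMap (((σ : ↥L' ≃ₐ[ℚ] ↥L') : ↥L' ≃ₐ[ℚ] ↥L') : ↥L' →+* ↥L')
              (Φ : LaurentSeries ↥L') = (Φ : LaurentSeries ↥L')) ∧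
          algebraMap ↥L' Qb c = cbar ∧ ssm_al_iota ↥L' (g : LaurentSeries ↥L') = gbar ∧
          ssm_al_iota ↥L' (Φ : LaurentSeries ↥L') = Φbar ∧
          ∀ v : Place ↥L' ↥(lg_E ↥L' N), v.ord Φ ≠ 0 → ss_RatPlace v := by
  classical
  obtain ⟨fV, hfV⟩ := s44b_rep_exists N hV
  obtain ⟨T0, hT0⟩ := twfm_first N hp0 hζ H V hH hfV
  obtain ⟨L₁, hfd₁, hn₁, hT0L₁, -⟩ := s44b_exists_nf N ∅ T0
  haveI := hfd₁
  haveI := hn₁
  obtain ⟨T₁, hT₁⟩ := s44kv_exists_gen L₁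
  obtain ⟨fv1, c₁, g₁, hfv1, hc₁, hg₁, hfix₁⟩ := hT0 L₁ hfd₁ hn₁ hT0L₁
  -- the invariant function on the Legendre cover
  set Φ₀ : LaurentSeries ↥L₁ := algebraMap ↥L₁ (LaurentSeries ↥L₁) c₁ *
    (fv1 : LaurentSeries ↥L₁) * (g₁ : LaurentSeries ↥L₁) ^ p with hΦ₀
  have hΦ₀F : Φ₀ ∈ lg_F ↥L₁ N :=
    mul_mem (mul_mem ((lg_F ↥L₁ N).algebraMap_mem c₁) fv1.2) (pow_mem g₁.2 p)
  have hΦ₁E : lg_phi ↥L₁ Φ₀ ∈ lg_E ↥L₁ N := lg_phi_mem_E ↥L₁ N hΦ₀F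
  have hΦ₁ : lg_phi ↥L₁ Φ₀ = algebraMap ↥L₁ (LaurentSeries ↥L₁) c₁ *
      lg_phi ↥L₁ (fv1 : LaurentSeries ↥L₁) * lg_phi ↥L₁ (g₁ : LaurentSeries ↥L₁) ^ p := by
    rw [hΦ₀, map_mul, map_mul, map_pow, AlgHom.commutes]
  -- rationality over `ℚ̄`
  have hΦbE : ssm_al_iota ↥L₁ (lg_phi ↥L₁ Φ₀) ∈ lg_E Qb N :=
    ssm_al_coeffMap_mem_E_bc _ N hΦ₁E
  haveI : FiniteDimensional Qb⟮(lg_lamE N : lg_E Qb N)⟯ (lg_E Qb N) := lgf_finite Qb N
  obtain ⟨s, hs⟩ := s44mr_rational_model.{0} (s44mr_defOver_lgE N) (lg_lamE N : lg_E Qb N)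
    ⟨ssm_al_iota ↥L₁ (lg_phi ↥L₁ Φ₀), hΦbE⟩
  refine ⟨T₁ ∪ s, fV, algebraMap ↥L₁ Qb c₁,
    ssm_al_iota ↥L₁ (lg_phi ↥L₁ (g₁ : LaurentSeries ↥L₁)), ssm_al_iota ↥L₁ (lg_phi ↥L₁ Φ₀), hfV,
    ?_⟩
  intro L' hfd hn hsub
  haveI := hfd
  haveI := hn
  have hle : L₁ ≤ L' := hT₁ L' fun a ha => hsub (by
    rw [Finset.mem_coe] at ha ⊢
    exact Finset.mem_union_left _ ha)
  obtain ⟨ρ, hρ⟩ := s44kv_exists_rho H hle
  have hgE : coeffMap (s44kv_incl hle) (lg_phi ↥L₁ (g₁ : LaurentSeries ↥L₁)) ∈ lg_E ↥L' N :=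
    ssm_al_coeffMap_mem_E_bc _ N (lg_phi_mem_E ↥L₁ N g₁.2)
  have hΦE : coeffMap (s44kv_incl hle) (lg_phi ↥L₁ Φ₀) ∈ lg_E ↥L' N :=
    ssm_al_coeffMap_mem_E_bc _ N hΦ₁E
  refine ⟨ssm_al_bcF (s44kv_incl hle) N fv1, s44kv_incl hle c₁, ⟨_, hgE⟩, ⟨_, hΦE⟩,
    (s44kv_iotaF_bcF N hle fv1).trans hfv1, ?_, ?_, ?_, ?_, s44kv_incl_algebraMap hle c₁,
    s44kv_iota_incl hle _, s44kv_iota_incl hle _, ?_⟩
  · exact (_root_.map_ne_zero _).2 hc₁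
  · intro h0
    have h1 := congrArg Subtype.val h0
    have h2 : coeffMap (s44kv_incl hle) (lg_phi ↥L₁ (g₁ : LaurentSeries ↥L₁)) = 0 := h1
    rw [_root_.map_eq_zero, _root_.map_eq_zero] at h2
    exact hg₁ (Subtype.ext h2)
  · show coeffMap (s44kv_incl hle) (lg_phi ↥L₁ Φ₀) = _
    rw [hΦ₁, map_mul, map_mul, map_pow, s44kq_coeffMap_algebraMap, lg_coeffMap_phi]
    rfl
  · intro σ'
    show coeffMap (((σ' : ↥L' ≃ₐ[ℚ] ↥L') : ↥L' ≃ₐ[ℚ] ↥L') : ↥L' →+* ↥L')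
      (coeffMap (s44kv_incl hle) (lg_phi ↥L₁ Φ₀)) = coeffMap (s44kv_incl hle) (lg_phi ↥L₁ Φ₀)
    have h1 := s44kq_coeffMap_smul (s44kv_incl hle) ρ hρ σ' (lg_phi ↥L₁ Φ₀)
    have h2 : ρ σ' • lg_phi ↥L₁ Φ₀ = lg_phi ↥L₁ Φ₀ := by
      show coeffMap (((ρ σ' : ↥L₁ ≃ₐ[ℚ] ↥L₁) : ↥L₁ ≃ₐ[ℚ] ↥L₁) : ↥L₁ →+* ↥L₁) (lg_phi ↥L₁ Φ₀) = _
      rw [lg_coeffMap_phi, hfix₁ (ρ σ')]
    rw [h2] at h1
    exact h1
  · intro v hv
    have hrange : (↑s : Set Qb) ⊆ Set.range (algebraMap ↥L' Qb) := fun a ha =>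
      ⟨⟨a, hsub (by
        rw [Finset.mem_coe] at ha ⊢
        exact Finset.mem_union_right _ ha)⟩, rfl⟩
    exact hs ↥L' (lg_E ↥L' N) (by simp) hrange (s44mr_isModel_lgE ↥L' N) ⟨_, hΦE⟩
      (s44kv_iota_incl hle _) v hv

end Unif

end Fermat.Agent.TW
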