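/-
PROJECT 'ONE MACHINE' (S43), block [F], cell (Z3) [MONO-tame] (helper16).  Prefix `twfm_`.

**(Z3) [MONO-tame]**, prime torsion exponent `p`, residue characteristic `q` (odd, `q ∤ M`), level
`M q`: for `V ∈ J₀(M q)[p]` FIXED BY THE INERTIA GROUP of a place `A ∣ q` of `ℚ̄`, the weighted
residues of `V` at the supersingular places of `FF_M / k_A` are all equal:

* `twfm_pairs` : the raw pairwise slope form (one reduction `fb` of one representative of `V`,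
  `T · ord_Q ū = 12 = T' · ord_{Q'} ū`, `T · ord_Q fb ≡ T' · ord_{Q'} fb (mod p)`);
* `twfm_k`     : the weights `k_Q = (ord_Q ū mod m)⁻¹` (S44's `s44e_k2` with the exponent decoupled);
* `twfm_mono`  : `∃ c : ZMod p, ∀ i : Sg, k_i · ν_i(V) = c`   (`ν = twfr_nu` of helper20's (Z2)).

This is the tame twin of S44's [H2] MONO-MAIN: its case `X = 0` (`s44h2_pair_nf_triv`), with
helper19's group `H` for `(ζ_p, β := 1, X := 0, V)` — which contains every `σ` with `σ V = V` —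
Hilbert 90 on the Legendre cover (`s44kx_unif_triv`, exponent-generic), the exponent-free node
packages (ND-SS) `s44ndss_ndss` at `p := q`, and the two-prime two-node theorem `twfm_pair_nf`.
-/
import Mathlib
import Fermat.Agent.S44.Mono.Main
import Fermat.Agent.TW.Easy.Mono.PairNF
import Fermat.Agent.TW.Easy.Res.Main

set_option autoImplicit false
set_option linter.unusedSectionVars false
set_option linter.style.haveILetI false
set_option linter.unusedVariables false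

noncomputable section

namespace Fermat.Agent.TW

open Polynomial ModularCurve AlgebraicCurve IntermediateField IsLocalRing
open Fermat.Agent.JT3 Fermat.Agent.SS Fermat.Agent.S35 Fermat.Agent.S24 Fermat.Agent.S44

local notation "Qb" => AlgebraicClosure ℚ

section Main

set_option synthInstance.maxHeartbeats 400000

variable (A : ValuationSubring Qb) {q : ℕ} [hq : Fact q.Prime] (hA : A.LiesOverPrime q)
  (M : ℕ) [NeZero M] [NeZero q] [NeZero (M * q)] (hqM : ¬ q ∣ M) (hq2 : ¬ 2 ∣ q)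

attribute [local instance] s44kq_lsAction

/-- every `σ` fixing `V` lies in helper19's group `H` for `(ζ, β := 1, X := 0, V)`. -/
theorem twfm_mem_H {p : ℕ} [Fact p.Prime] {ζ : Qb} (hζ : IsPrimitiveRoot ζ p)
    (hX : p • (0 : JZero (M * q)) = 0) (V : JZero (M * q)) {σ : s44_G} (hσ : σ • V = V) :
    σ ∈ s44md_H hζ (1 : Qb) hX V := by
  have hp : p.Prime := Fact.out
  have h1 : (σ ζ) ^ p = 1 := by rw [← map_pow, hζ.pow_eq_one, map_one]
  obtain ⟨i, -, hi⟩ := hζ.eq_pow_of_pow_eq_one h1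
  refine s44md_mem_H_of_nat hζ 1 hX V (i := i) (a := 0) hi.symm ?_ ?_ ?_
  · rw [smul_zero, smul_zero]
  · rw [zero_nsmul, add_zero, hσ]
  · rw [pow_zero, one_mul, map_one]

include hA hq2 in
set_option maxHeartbeats 3200000 in
/-- **(Z3) [MONO-tame], raw pairwise slope form** (prime exponent `p`). -/
theorem twfm_pairs {p : ℕ} [hp : Fact p.Prime] {V : JZero (M * q)} (hV : p • V = 0)
    (hfix : ∀ σ ∈ A.inertiaSubgroupIn ℚ, σ • V = V)
    (Q Q' : Place (s44e_kA A) (s44e_FF A M))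
    (hQ : s44e_IsSS A M q hq.out hqM Q) (hQ' : s44e_IsSS A M q hq.out hqM Q') :
    ∃ (fb : s44e_FF A M) (T T' : ℤ), twfr_Fbar A M q p V fb ∧
      T * Q.ord (s44e_ubar A M q) = 12 ∧ T' * Q'.ord (s44e_ubar A M q) = 12 ∧
      T * Q.ord fb ≡ T' * Q'.ord fb [ZMOD (p : ℤ)] := by
  classical
  have hpp : p.Prime := hp.out
  haveI : NeZero ((p : ℕ) : Qb) := ⟨by exact_mod_cast hpp.ne_zero⟩
  obtain ⟨ζ, hζ⟩ := HasEnoughRootsOfUnity.exists_primitiveRoot Qb p
  have hX : p • (0 : JZero (M * q)) = 0 := smul_zero _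
  obtain ⟨T₀, hT₀⟩ := s44ndss_ndss A hA M hqM hq2 Q hQ
  obtain ⟨T₀', hT₀'⟩ := s44ndss_ndss A hA M hqM hq2 Q' hQ'
  haveI : NeZero ((M : ℕ) : Qb) := ⟨by exact_mod_cast (NeZero.ne M)⟩
  obtain ⟨ζM, hζM⟩ := HasEnoughRootsOfUnity.exists_primitiveRoot Qb M
  obtain ⟨T₂, fV, cbar, gbar, Φbar, hRV, hall⟩ :=
    s44kx_unif_triv (M * q) hζ (1 : Qb) hX V one_ne_zero hV rfl
  obtain ⟨L', hfd, hn, hTL', -⟩ := s44b_exists_nf (M * q) ∅ (T₂ ∪ T₀ ∪ T₀' ∪ {ζM})
  have hTL'' : ∀ x ∈ (T₂ ∪ T₀ ∪ T₀' ∪ {ζM} : Finset Qb), x ∈ L' :=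
    fun x hx => hTL' (Finset.mem_coe.2 hx)
  have s1 : (↑T₂ : Set Qb) ⊆ L' := fun x hx => hTL'' x (by
    simp only [Finset.mem_union]; exact Or.inl (Or.inl (Or.inl (Finset.mem_coe.1 hx))))
  have s2 : (↑T₀ : Set Qb) ⊆ L' := fun x hx => hTL'' x (by
    simp only [Finset.mem_union]; exact Or.inl (Or.inl (Or.inr (Finset.mem_coe.1 hx))))
  have s3 : (↑T₀' : Set Qb) ⊆ L' := fun x hx => hTL'' x (by
    simp only [Finset.mem_union]; exact Or.inl (Or.inr (Finset.mem_coe.1 hx)))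
  have s4 : ζM ∈ L' := hTL'' ζM (Finset.mem_union_right _ (Finset.mem_singleton_self ζM))
  haveI := hfd
  haveI := hn
  haveI : NumberField ↥L' := { to_charZero := inferInstance, to_finiteDimensional := hfd }
  haveI hdvr : IsDiscreteValuationRing ↥(A.comap (algebraMap ↥L' Qb)) :=
    dsc_isDVR_comap_numberField A q hA hq.out.ne_zero ↥L'
  haveI : CharP (IsLocalRing.ResidueField ↥(A.comap (algebraMap ↥L' Qb))) q :=
    ss_nfl_charP_residue (lg_natCast_mem_maximalIdeal A hA ↥L')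
  obtain ⟨π, hπ⟩ := IsDiscreteValuationRing.exists_irreducible
    ↥(A.comap (algebraMap ↥L' Qb))
  have hζM' : IsPrimitiveRoot (⟨ζM, s4⟩ : ↥L') M :=
    (IsPrimitiveRoot.map_iff_of_injective (f := algebraMap ↥L' Qb)
      (FaithfulSMul.algebraMap_injective ↥L' Qb)).1 hζM
  obtain ⟨fv1, c, g, Φ, hfv1, hc0, hg0, hΦ, hσΦ, -, -, -, hRΦ⟩ := hall L' hfd hn s1
  have hle : s44mn_G (A.inertiaSubgroupIn ℚ) L' ≤ s44mn_G (s44md_H hζ (1 : Qb) hX V) L' :=
    s44mn_G_mono (fun σ hσ => twfm_mem_H M hζ hX V (hfix σ hσ)) L'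
  exact twfm_pair_nf A hA M hqM hq2 L' hπ hpp.ne_zero ⟨ζM, s4⟩ hζM'
    (by rw [hfv1]; exact hRV) hc0 hg0 hΦ (fun σ => hσΦ ⟨σ.1, hle σ.2⟩) hRΦ Q Q'
    (hT₀ L' s2 hπ) (hT₀' L' s3 hπ)

/-! ### the weights and the `k · ν = c` form -/

/-- **the weights of (Z3), exponent `m`**: `k_Q = (ord_Q ū mod m)⁻¹`, `ū` the `w_∞`-reduction of the
modular unit `Δ(τ)/Δ(qτ)` (S44's `s44e_k2`, with the torsion exponent decoupled from `q`). -/
def twfm_k (q : ℕ) [NeZero q] (hq : q.Prime) [NeZero (M * q)] (hqM : ¬ q ∣ M) (m : ℕ)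
    (i : s44e_Sg A M q hq hqM) : ZMod m :=
  (((Place.ord i.1 (s44e_ubar A M q) : ℤ) : ZMod m))⁻¹

omit hq in
/-- arithmetic: `T · a = 12`, `gcd(m, 6) = 1` ⟹ `(a mod m)⁻¹ · b = T · b / 12` in `ZMod m`. -/
theorem twfm_inv_mul {m : ℕ} (hm6 : Nat.Coprime m 6) {a b T : ℤ} (hu : T * a = 12) :
    (((a : ℤ) : ZMod m))⁻¹ * ((b : ℤ) : ZMod m) =
      (((T * b : ℤ)) : ZMod m) * (((12 : ℤ) : ZMod m))⁻¹ := by
  have h12u : IsUnit (((12 : ℤ) : ZMod m)) := by
    have h1 : Nat.Coprime 12 m := by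
      have h2 : Nat.Coprime (6 * 6) m := Nat.Coprime.mul_left hm6.symm hm6.symm
      exact Nat.Coprime.coprime_dvd_left (by norm_num : 12 ∣ 6 * 6) h2
    have := (ZMod.isUnit_iff_coprime 12 m).2 h1
    simpa using this
  have hau : IsUnit (((a : ℤ) : ZMod m)) := by
    have h1 : ((T : ℤ) : ZMod m) * ((a : ℤ) : ZMod m) = ((12 : ℤ) : ZMod m) := by
      rw [← hu]; push_cast; ring
    exact isUnit_of_mul_isUnit_right (h1 ▸ h12u)
  have e1 : ((a : ℤ) : ZMod m) * (((a : ℤ) : ZMod m))⁻¹ = 1 := ZMod.mul_inv_of_unit _ hau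
  have e2 : ((12 : ℤ) : ZMod m) * (((12 : ℤ) : ZMod m))⁻¹ = 1 := ZMod.mul_inv_of_unit _ h12u
  have e3 : ((T : ℤ) : ZMod m) * ((a : ℤ) : ZMod m) = ((12 : ℤ) : ZMod m) := by
    rw [← hu]; push_cast; ring
  calc (((a : ℤ) : ZMod m))⁻¹ * ((b : ℤ) : ZMod m)
      = (((a : ℤ) : ZMod m))⁻¹ * ((b : ℤ) : ZMod m) *
          (((12 : ℤ) : ZMod m) * (((12 : ℤ) : ZMod m))⁻¹) := by rw [e2, mul_one]
    _ = (((a : ℤ) : ZMod m) * (((a : ℤ) : ZMod m))⁻¹) * (((T : ℤ) : ZMod m) * ((b : ℤ) : ZMod m)) *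
          (((12 : ℤ) : ZMod m))⁻¹ := by rw [← e3]; ring
    _ = (((T * b : ℤ)) : ZMod m) * (((12 : ℤ) : ZMod m))⁻¹ := by
        rw [e1, one_mul]; push_cast; ring

include hA hq2 in
/-- **(Z3) [MONO-tame]** (prime exponent `p ≥ 5`): for `V ∈ J₀(M q)[p]` fixed by the inertia group
of `A ∣ q`, the weighted residues `k_i · ν_i(V)` at the supersingular places are all equal. -/
theorem twfm_mono {p : ℕ} [hp : Fact p.Prime] (hp5 : 5 ≤ p) {V : JZero (M * q)}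
    (hV : p • V = 0) (hfix : ∀ σ ∈ A.inertiaSubgroupIn ℚ, σ • V = V) :
    ∃ c : ZMod p, ∀ i : s44e_Sg A M q hq.out hqM,
      twfm_k A M q hq.out hqM p i * twfr_nu A M q hq.out hqM p V i = c := by
  have hpp : p.Prime := hp.out
  have hm6 : Nat.Coprime p 6 := by
    have h2 : Nat.Coprime p 2 := (Nat.coprime_primes hpp Nat.prime_two).2 (by omega)
    have h3 : Nat.Coprime p 3 := (Nat.coprime_primes hpp Nat.prime_three).2 (by omega)
    exact Nat.Coprime.mul_right h2 h3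
  refine s44mend_exists_c _ (fun i i' => ?_)
  obtain ⟨fb, T, T', hFb, hu, hu', hc⟩ := twfm_pairs A hA M hqM hq2 hV hfix i.1 i'.1 i.2 i'.2
  have e := twfr_nuAll_eq A hq.out hA M hpp.pos (s44rd_hmem A hA M hqM) hFb i.1
  have e' := twfr_nuAll_eq A hq.out hA M hpp.pos (s44rd_hmem A hA M hqM) hFb i'.1
  show (((Place.ord i.1 (s44e_ubar A M q) : ℤ) : ZMod p))⁻¹ * twfr_nuAll A M q p V i.1 =
    (((Place.ord i'.1 (s44e_ubar A M q) : ℤ) : ZMod p))⁻¹ * twfr_nuAll A M q p V i'.1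
  rw [e, e', twfm_inv_mul hm6 hu, twfm_inv_mul hm6 hu', (ZMod.intCast_eq_intCast_iff _ _ p).2 hc]

end Main

end Fermat.Agent.TW
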